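import Mathlib
import Fermat.Prelude.Def_FormalHecke_Eigensystem

set_option autoImplicit false

namespace Fermat.Agent.S49

open FormalHecke

variable {R : Type*} [CommRing R]

/-- A formal Hecke eigensystem is multiplicative on coprime arguments. -/
theorem isEigensystem_mul_of_coprime {e a : ℕ → R} (h : IsEigensystem e a) :
    ∀ m n : ℕ, m.Coprime n → a (m * n) = a m * a n := by
  intro m
  induction m using Nat.strong_induction_on with
  | _ m ih =>
  intro n hmn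
  rcases Nat.eq_zero_or_pos m with rfl | hmpos
  · have hn : n = 1 := by simpa using hmn
    subst hn
    rw [h.1]; simp
  rcases eq_or_ne m 1 with rfl | hm1
  · rw [h.1]; simp
  obtain ⟨ℓ, hℓ, hℓm⟩ := Nat.exists_prime_and_dvd hm1
  obtain ⟨m', rfl⟩ := hℓm
  have hm'pos : 0 < m' := Nat.pos_of_ne_zero (by rintro rfl; simp at hmpos)
  have hm'lt : m' < ℓ * m' := by
    have := hℓ.two_le
    nlinarith
  have hcop' : m'.Coprime n := Nat.Coprime.coprime_dvd_left (Dvd.intro_left ℓ rfl) hmn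
  have hℓn : ¬ ℓ ∣ n := by
    intro hdvd
    have hℓcop : ℓ.Coprime n := Nat.Coprime.coprime_dvd_left (Dvd.intro m' rfl) hmn
    have : ℓ ∣ 1 := by
      have := Nat.dvd_gcd (dvd_refl ℓ) hdvd
      rwa [hℓcop] at this
    exact hℓ.one_lt.ne' (Nat.dvd_one.mp this)
  have key := h.2 ℓ hℓ (m' * n)
  have key' := h.2 ℓ hℓ m'
  have ihm' := ih m' hm'lt n hcop'
  by_cases hℓm' : ℓ ∣ m'
  · obtain ⟨m'', rfl⟩ := hℓm'
    have hm''lt : m'' < ℓ * (ℓ * m'') := by
      have := hℓ.two_le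
      have hm''pos : 0 < m'' := Nat.pos_of_ne_zero (by rintro rfl; simp at hm'pos)
      nlinarith
    have hcop'' : m''.Coprime n := Nat.Coprime.coprime_dvd_left (Dvd.intro_left ℓ rfl) hcop'
    have ihm'' := ih m'' hm''lt n hcop''
    have hdvd1 : ℓ ∣ ℓ * m'' * n := ⟨m'' * n, by ring⟩
    have hdiv1 : ℓ * m'' * n / ℓ = m'' * n := by
      rw [mul_assoc]; exact Nat.mul_div_cancel_left _ hℓ.pos
    have hdvd2 : ℓ ∣ ℓ * m'' := Dvd.intro _ rfl
    have hdiv2 : ℓ * m'' / ℓ = m'' := Nat.mul_div_cancel_left _ hℓ.pos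
    rw [if_pos hdvd1, hdiv1, ihm', ihm''] at key
    rw [if_pos hdvd2, hdiv2] at key'
    have e1 : ℓ * (ℓ * m'') * n = ℓ * (ℓ * m'' * n) := by ring
    rw [e1]
    have k1 : a (ℓ * (ℓ * m'' * n)) = a ℓ * (a (ℓ * m'') * a n) - e ℓ * (a m'' * a n) := by
      rw [← key]; ring
    have k2 : a (ℓ * (ℓ * m'')) = a ℓ * a (ℓ * m'') - e ℓ * a m'' := by
      rw [← key']; ring
    rw [k1, k2]; ring
  · have hnd : ¬ ℓ ∣ m' * n := by
      intro hd
      rcases (Nat.Prime.dvd_mul hℓ).mp hd with h1 | h1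
      · exact hℓm' h1
      · exact hℓn h1
    rw [if_neg hnd, mul_zero, add_zero, ihm'] at key
    rw [if_neg hℓm', mul_zero, add_zero] at key'
    have e1 : ℓ * m' * n = ℓ * (m' * n) := by ring
    rw [e1, key, key']; ring

/-- A formal Hecke eigensystem satisfies the prime-power recursion. -/
theorem isEigensystem_prime_pow {e a : ℕ → R} (h : IsEigensystem e a) (ℓ r : ℕ) (hℓ : ℓ.Prime) :
    a (ℓ ^ (r + 2)) = a ℓ * a (ℓ ^ (r + 1)) - e ℓ * a (ℓ ^ r) := by
  have key := h.2 ℓ hℓ (ℓ ^ (r + 1))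
  have hdvd : ℓ ∣ ℓ ^ (r + 1) := ⟨ℓ ^ r, by ring⟩
  have hdiv : ℓ ^ (r + 1) / ℓ = ℓ ^ r := by
    rw [pow_succ]; exact Nat.mul_div_cancel _ hℓ.pos
  rw [if_pos hdvd, hdiv] at key
  have e1 : ℓ ^ (r + 2) = ℓ * ℓ ^ (r + 1) := by ring
  rw [e1, ← key]; ring

theorem isEigensystem_isRecursive {e a : ℕ → R} (h : IsEigensystem e a) : IsRecursive e a :=
  ⟨h.1, isEigensystem_mul_of_coprime h, fun ℓ r hℓ => isEigensystem_prime_pow h ℓ r hℓ⟩

end Fermat.Agent.S49
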