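import Mathlib
import Fermat.Prelude.Def_FLTPrelim_Modularity
import Fermat.Prelude.Def_ModularForm_HeckeOperatorForms
import Fermat.Prelude.Thm_ModularFormClass_qCoeff_heckeT
import Fermat.Prelude.Thm_ModularFormClass_qCoeff_heckeU
import Fermat.Prelude.Thm_CongruenceSubgroup_one_mem_strictPeriods_Gamma0
import Fermat.Agent.S49.FormalHecke
import Fermat.Agent.S49.QExp
import Fermat.Prelude.Def_CuspForm_HeckeAlgebra

set_option autoImplicit false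

namespace Fermat.Agent.S49

open CuspForm CongruenceSubgroup ModularFormClass UpperHalfPlane

variable {N : ℕ} {k : ℤ}

/-- The "character" of the weight-two Hecke relations: `0` at primes dividing the level and `ℓ`
otherwise. -/
noncomputable def levelChar (N : ℕ) (ℓ : ℕ) : ℂ := if ℓ ∣ N then 0 else (ℓ : ℂ)

/-- A simultaneous eigenvector for all `T_ℓ` and `U_q` has eigensystem-like `q`-coefficients. -/
theorem qCoeff_eigen_relation [NeZero N] (w : CuspForm (Gamma0 N) 2) (lam : ℕ → ℂ)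
    (hT : ∀ (ℓ : ℕ) (hℓ : ℓ.Prime) (hℓN : ¬ ℓ ∣ N), heckeTLin 2 hℓ hℓN w = lam ℓ • w)
    (hU : ∀ (q : ℕ) (_ : q.Prime) (hqN : q ∣ N), heckeULin 2 hqN w = lam q • w)
    (ℓ : ℕ) (hℓ : ℓ.Prime) (n : ℕ) :
    qCoeff ⇑w (ℓ * n) + levelChar N ℓ * (if ℓ ∣ n then qCoeff ⇑w (n / ℓ) else 0) =
      lam ℓ * qCoeff ⇑w n := by
  by_cases hℓN : ℓ ∣ N
  · have h1 := qCoeff_heckeULin hℓ hℓN w n
    rw [hU ℓ hℓ hℓN, qCoeff_smul] at h1
    rw [levelChar, if_pos hℓN, zero_mul, add_zero, mul_comm ℓ n, ← h1]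
  · have h1 := qCoeff_heckeTLin hℓ hℓN w n
    rw [hT ℓ hℓ hℓN, qCoeff_smul] at h1
    rw [levelChar, if_neg hℓN, mul_comm ℓ n, h1]
    have : (2 : ℤ) - 1 = 1 := by norm_num
    rw [this, zpow_one]
    split_ifs <;> ring

/-- If the first coefficient of a simultaneous eigenvector vanishes, all coefficients vanish. -/
theorem qCoeff_eq_zero_of_eigen [NeZero N] (w : CuspForm (Gamma0 N) 2) (lam : ℕ → ℂ)
    (hrel : ∀ (ℓ : ℕ) (_ : ℓ.Prime) (n : ℕ),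
      qCoeff ⇑w (ℓ * n) + levelChar N ℓ * (if ℓ ∣ n then qCoeff ⇑w (n / ℓ) else 0) =
        lam ℓ * qCoeff ⇑w n)
    (h1 : qCoeff ⇑w 1 = 0) : ∀ n, qCoeff ⇑w n = 0 := by
  intro n
  induction n using Nat.strong_induction_on with
  | _ n ih =>
  rcases Nat.eq_zero_or_pos n with rfl | hpos
  · exact qCoeff_zero_index w
  rcases eq_or_ne n 1 with rfl | hn1
  · exact h1
  obtain ⟨ℓ, hℓ, m, rfl⟩ := Nat.exists_prime_and_dvd hn1
  have hmpos : 0 < m := Nat.pos_of_ne_zero (by rintro rfl; simp at hpos)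
  have hmlt : m < ℓ * m := by
    have := hℓ.two_le
    nlinarith
  have hdivlt : m / ℓ < ℓ * m := lt_of_le_of_lt (Nat.div_le_self m ℓ) hmlt
  have key := hrel ℓ hℓ m
  rw [ih m hmlt, ih (m / ℓ) hdivlt] at key
  simpa using key

/-- From a simultaneous eigenvector for all Hecke operators, build a normalised eigenform whose
prime-indexed coefficients are the eigenvalues. -/
theorem exists_normalizedEigenform_of_eigenvector [NeZero N] (w : CuspForm (Gamma0 N) 2)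
    (hw : w ≠ 0) (lam : ℕ → ℂ)
    (hT : ∀ (ℓ : ℕ) (hℓ : ℓ.Prime) (hℓN : ¬ ℓ ∣ N), heckeTLin 2 hℓ hℓN w = lam ℓ • w)
    (hU : ∀ (q : ℕ) (_ : q.Prime) (hqN : q ∣ N), heckeULin 2 hqN w = lam q • w) :
    ∃ f : CuspForm (Gamma0 N) 2, f.IsNormalizedEigenform ∧
      ∀ ℓ : ℕ, ℓ.Prime → qCoeff ⇑f ℓ = lam ℓ := by
  have hrel := qCoeff_eigen_relation w lam hT hU
  have hb1 : qCoeff ⇑w 1 ≠ 0 := fun h1 =>
    hw (eq_zero_of_forall_qCoeff w (qCoeff_eq_zero_of_eigen w lam hrel h1))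
  let f : CuspForm (Gamma0 N) 2 := (qCoeff ⇑w 1)⁻¹ • w
  have hfc : ∀ n, qCoeff ⇑f n = (qCoeff ⇑w 1)⁻¹ * qCoeff ⇑w n := fun n => qCoeff_smul _ w n
  have hf1 : qCoeff ⇑f 1 = 1 := by rw [hfc, inv_mul_cancel₀ hb1]
  have hfrel : ∀ (ℓ : ℕ) (_ : ℓ.Prime) (n : ℕ),
      qCoeff ⇑f (ℓ * n) + levelChar N ℓ * (if ℓ ∣ n then qCoeff ⇑f (n / ℓ) else 0) =
        lam ℓ * qCoeff ⇑f n := by
    intro ℓ hℓ n
    have := hrel ℓ hℓ n
    rw [hfc, hfc, hfc]
    have h2 : (qCoeff ⇑w 1)⁻¹ * qCoeff ⇑w (ℓ * n) +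
        levelChar N ℓ * (if ℓ ∣ n then (qCoeff ⇑w 1)⁻¹ * qCoeff ⇑w (n / ℓ) else 0) =
        (qCoeff ⇑w 1)⁻¹ * (qCoeff ⇑w (ℓ * n) +
          levelChar N ℓ * (if ℓ ∣ n then qCoeff ⇑w (n / ℓ) else 0)) := by
      split_ifs <;> ring
    rw [h2, this]; ring
  have hlam : ∀ ℓ : ℕ, ℓ.Prime → qCoeff ⇑f ℓ = lam ℓ := by
    intro ℓ hℓ
    have := hfrel ℓ hℓ 1
    have hnd : ¬ ℓ ∣ 1 := fun h => hℓ.one_lt.ne' (Nat.dvd_one.mp h)
    rw [if_neg hnd, mul_zero, add_zero, mul_one, hf1, mul_one] at this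
    exact this
  have heig : FormalHecke.IsEigensystem (levelChar N) (fun n => qCoeff ⇑f n) := by
    refine ⟨hf1, fun ℓ hℓ n => ?_⟩
    have := hfrel ℓ hℓ n
    simp only [hlam ℓ hℓ]
    exact this
  refine ⟨f, ⟨hf1, isEigensystem_mul_of_coprime heig, ?_, ?_⟩, hlam⟩
  · intro p r hp hpN
    have := isEigensystem_prime_pow heig p r hp
    simpa [levelChar, hpN] using this
  · intro p r hp hpN
    have := isEigensystem_prime_pow heig p r hp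
    simpa [levelChar, hpN] using this

/-- Wrapper: eigenvector for the whole Hecke algebra with character `χ`. -/
theorem exists_normalizedEigenform {N : ℕ} [NeZero N] (w : CuspForm (Gamma0 N) 2) (hw : w ≠ 0)
    (χ : heckeAlgebra N 2 (∅ : Set ℕ) →+* ℂ)
    (hχ : ∀ t : heckeAlgebra N 2 (∅ : Set ℕ),
      (t : Module.End ℂ (CuspForm (Gamma0 N) 2)) w = χ t • w) :
    ∃ f : CuspForm (Gamma0 N) 2, f.IsNormalizedEigenform ∧
      ∀ (ℓ : ℕ) (hℓ : ℓ.Prime) (hℓN : ¬ ℓ ∣ N),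
        ModularFormClass.qCoeff f ℓ = χ (heckeAlgebra.T hℓ hℓN (Set.notMem_empty ℓ)) := by
  classical
  let lam : ℕ → ℂ := fun ℓ =>
    if hℓ : ℓ.Prime then
      (if hℓN : ℓ ∣ N then χ (heckeAlgebra.U hℓ hℓN (Set.notMem_empty ℓ))
        else χ (heckeAlgebra.T hℓ hℓN (Set.notMem_empty ℓ)))
    else 0
  have hT : ∀ (ℓ : ℕ) (hℓ : ℓ.Prime) (hℓN : ¬ ℓ ∣ N), heckeTLin 2 hℓ hℓN w = lam ℓ • w := by
    intro ℓ hℓ hℓN
    have := hχ (heckeAlgebra.T hℓ hℓN (Set.notMem_empty ℓ))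
    simp only [lam, dif_pos hℓ, dif_neg hℓN]
    rw [← this]; rfl
  have hU : ∀ (q : ℕ) (_ : q.Prime) (hqN : q ∣ N), heckeULin 2 hqN w = lam q • w := by
    intro q hq hqN
    have := hχ (heckeAlgebra.U hq hqN (Set.notMem_empty q))
    simp only [lam, dif_pos hq, dif_pos hqN]
    rw [← this]; rfl
  obtain ⟨f, hf, hfl⟩ := exists_normalizedEigenform_of_eigenvector w hw lam hT hU
  refine ⟨f, hf, fun ℓ hℓ hℓN => ?_⟩
  rw [hfl ℓ hℓ]
  simp only [lam, dif_pos hℓ, dif_neg hℓN]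

end Fermat.Agent.S49
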