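import Mathlib

set_option autoImplicit false

namespace Fermat.Agent.S49

section LinAlg

variable {K : Type*} {A : Type*} [Field K] [CommRing A]

/-- Restriction of a ring hom into `End V` to an invariant submodule. -/
theorem exists_restrict_ringHom {V : Type*} [AddCommGroup V] [Module K V]
    (ρ : A →+* Module.End K V) (W : Submodule K V) (h : ∀ t, ∀ w ∈ W, ρ t w ∈ W) :
    ∃ ρ' : A →+* Module.End K W, ∀ (t : A) (w : W), ((ρ' t w : W) : V) = ρ t (w : V) := by
  refine ⟨{ toFun := fun t => (ρ t).restrict (h t)
            map_one' := ?_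
            map_mul' := ?_
            map_zero' := ?_
            map_add' := ?_ }, ?_⟩
  · ext w; simp
  · intro s t; ext w; simp
  · ext w; simp
  · intro s t; ext w; simp
  · intro t w; rfl

/-- Auxiliary form: induction on the dimension, producing a function `χ`. -/
theorem exists_eigenvector_aux [IsAlgClosed K] (P : Ideal A) [P.IsPrime] :
    ∀ (n : ℕ) (V : Type*) [AddCommGroup V] [Module K V] [FiniteDimensional K V],
      Module.finrank K V = n →
      ∀ ρ : A →+* Module.End K V, (∀ t, ρ t = 0 → t ∈ P) →
        ∃ (v : V) (χ : A → K), v ≠ 0 ∧ (∀ t, ρ t v = χ t • v) ∧ ∀ t, χ t = 0 → t ∈ P := by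
  intro n
  induction n using Nat.strong_induction_on with
  | _ n ih =>
    intro V _ _ _ hn ρ hP
    -- V is nontrivial since `1 ∉ P`
    have hnt : Nontrivial V := by
      by_contra hV
      rw [not_nontrivial_iff_subsingleton] at hV
      have : ρ 1 = 0 := by
        ext v; exact Subsingleton.elim _ _
      exact (Ideal.IsPrime.ne_top inferInstance) ((Ideal.eq_top_iff_one P).2 (hP 1 this))
    by_cases hsc : ∀ t, ∃ c : K, ∀ v, ρ t v = c • v
    · -- all scalar
      choose c hc using hsc
      obtain ⟨v, hv⟩ := exists_ne (0 : V)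
      refine ⟨v, c, hv, fun t => hc t v, fun t ht => hP t ?_⟩
      ext w
      rw [hc t w, ht, zero_smul, LinearMap.zero_apply]
    · push Not at hsc
      obtain ⟨t₀, ht₀⟩ := hsc
      obtain ⟨μ, hμ⟩ := Module.End.exists_eigenvalue (ρ t₀)
      set g : Module.End K V := ρ t₀ - μ • 1 with hg
      have hcomm : ∀ t, ρ t * g = g * ρ t := by
        intro t
        rw [hg, mul_sub, sub_mul, ← map_mul, ← map_mul, mul_comm t t₀]
        simp
      have hcomm' : ∀ t v, ρ t (g v) = g (ρ t v) := by
        intro t v
        have := congrArg (fun f => f v) (hcomm t)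
        simpa using this
      -- kernel and range
      set W' : Submodule K V := LinearMap.ker g with hW'
      set W'' : Submodule K V := LinearMap.range g with hW''
      have hW'ne_bot : W' ≠ ⊥ := by
        have := hμ
        rw [Module.End.hasEigenvalue_iff, Module.End.eigenspace_def] at this
        simpa [hW', hg] using this
      have hW'ne_top : W' ≠ ⊤ := by
        intro htop
        obtain ⟨v, hv⟩ := ht₀ μ
        apply hv
        have : v ∈ W' := by rw [htop]; trivial
        rw [hW', LinearMap.mem_ker, hg] at this
        simpa [sub_eq_zero] using this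
      have hrank : Module.finrank K W'' + Module.finrank K W' = Module.finrank K V :=
        LinearMap.finrank_range_add_finrank_ker g
      have hlt' : Module.finrank K W' < n := by
        rw [← hn]
        exact Submodule.finrank_lt hW'ne_top
      have hpos' : 0 < Module.finrank K W' := by
        rw [Module.finrank_pos_iff]
        exact (Submodule.nontrivial_iff_ne_bot).2 hW'ne_bot
      have hlt'' : Module.finrank K W'' < n := by
        rw [← hn]
        omega
      have hinv' : ∀ t, ∀ w ∈ W', ρ t w ∈ W' := by
        intro t w hw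
        rw [hW', LinearMap.mem_ker] at hw ⊢
        rw [← hcomm', hw, map_zero]
      have hinv'' : ∀ t, ∀ w ∈ W'', ρ t w ∈ W'' := by
        intro t w hw
        rw [hW'', LinearMap.mem_range] at hw ⊢
        obtain ⟨u, rfl⟩ := hw
        exact ⟨ρ t u, (hcomm' t u).symm⟩
      obtain ⟨ρ', hρ'⟩ := exists_restrict_ringHom ρ W' hinv'
      obtain ⟨ρ'', hρ''⟩ := exists_restrict_ringHom ρ W'' hinv''
      -- one of the two restrictions has annihilator inside P
      have hor : (∀ t, ρ' t = 0 → t ∈ P) ∨ (∀ t, ρ'' t = 0 → t ∈ P) := by
        by_contra hcon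
        push Not at hcon
        obtain ⟨⟨s', hs'0, hs'P⟩, ⟨s'', hs''0, hs''P⟩⟩ := hcon
        have hzero : ρ (s' * s'') = 0 := by
          ext v
          rw [map_mul, Module.End.mul_apply, LinearMap.zero_apply]
          -- ρ s'' v ∈ W'
          have h1 : ρ s'' v ∈ W' := by
            rw [hW', LinearMap.mem_ker, ← hcomm']
            have hgv : g v ∈ W'' := LinearMap.mem_range_self g v
            have := hρ'' s'' ⟨g v, hgv⟩
            rw [hs''0] at this
            simpa using this.symm
          have := hρ' s' ⟨ρ s'' v, h1⟩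
          rw [hs'0] at this
          simpa using this.symm
        rcases Ideal.IsPrime.mem_or_mem inferInstance (hP _ hzero) with h | h
        · exact hs'P h
        · exact hs''P h
      rcases hor with hP' | hP''
      · obtain ⟨v, χ, hv, hχ, hχP⟩ := ih _ hlt' W' rfl ρ' hP'
        refine ⟨(v : V), χ, fun h => hv (Subtype.ext h), fun t => ?_, hχP⟩
        rw [← hρ' t v, hχ t]
        rfl
      · obtain ⟨v, χ, hv, hχ, hχP⟩ := ih _ hlt'' W'' rfl ρ'' hP''
        refine ⟨(v : V), χ, fun h => hv (Subtype.ext h), fun t => ?_, hχP⟩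
        rw [← hρ'' t v, hχ t]
        rfl

theorem exists_eigenvector_ker_le_prime {K V A : Type*} [Field K] [IsAlgClosed K]
    [AddCommGroup V] [Module K V] [FiniteDimensional K V] [CommRing A]
    (ρ : A →+* Module.End K V) (P : Ideal A) [P.IsPrime] (hP : ∀ t, ρ t = 0 → t ∈ P) :
    ∃ (v : V) (χ : A →+* K), v ≠ 0 ∧ (∀ t, ρ t v = χ t • v) ∧ ∀ t, χ t = 0 → t ∈ P := by
  obtain ⟨v, χ, hv, hχ, hχP⟩ := exists_eigenvector_aux P _ V rfl ρ hP
  have key : ∀ a b : K, a • v = b • v → a = b := by
    intro a b hab
    have : (a - b) • v = 0 := by rw [sub_smul, hab, sub_self]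
    rcases smul_eq_zero.1 this with h | h
    · exact sub_eq_zero.1 h
    · exact absurd h hv
  refine ⟨v, { toFun := χ
               map_one' := ?_
               map_mul' := ?_
               map_zero' := ?_
               map_add' := ?_ }, hv, hχ, hχP⟩
  · apply key
    rw [← hχ 1, map_one, one_smul, Module.End.one_apply]
  · intro s t
    apply key
    rw [← hχ, map_mul, Module.End.mul_apply, hχ t, map_smul, hχ s, smul_smul, mul_comm]
  · apply key
    rw [← hχ 0, map_zero, zero_smul, LinearMap.zero_apply]
  · intro s t
    apply key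
    rw [← hχ, map_add, LinearMap.add_apply, hχ s, hχ t, add_smul]

end LinAlg

end Fermat.Agent.S49
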