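import Mathlib

set_option autoImplicit false

namespace Fermat.Agent.S49

/-- A character of an integral `ℤ`-algebra into `ℂ` whose kernel lies in a maximal ideal `m`
factors through the algebraic integers, and there is a maximal ideal of the algebraic integers
lying over `m`. -/
theorem exists_maximal_over {A : Type*} [CommRing A] [Algebra.IsIntegral ℤ A] (χ : A →+* ℂ)
    (m : Ideal A) [hm : m.IsMaximal] (h : RingHom.ker χ ≤ m) :
    ∃ (χ' : A →+* integralClosure ℤ ℂ) (m' : Ideal (integralClosure ℤ ℂ)),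
      m'.IsMaximal ∧ (∀ t, (χ' t : ℂ) = χ t) ∧ m'.comap χ' = m := by
  have hint : ∀ t : A, χ t ∈ integralClosure ℤ ℂ := fun t =>
    map_isIntegral_int χ (Algebra.IsIntegral.isIntegral t)
  let χ' : A →+* integralClosure ℤ ℂ := χ.codRestrict (integralClosure ℤ ℂ) hint
  have hχ' : ∀ t, (χ' t : ℂ) = χ t := fun t => rfl
  letI : Algebra A (integralClosure ℤ ℂ) := χ'.toAlgebra
  have hmap : algebraMap A (integralClosure ℤ ℂ) = χ' := rfl
  haveI : Algebra.IsIntegral A (integralClosure ℤ ℂ) := by
    constructor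
    intro z
    have hz : IsIntegral ℤ z := Algebra.IsIntegral.isIntegral z
    exact hz.tower_top
  have hker : RingHom.ker (algebraMap A (integralClosure ℤ ℂ)) ≤ m := by
    intro t ht
    apply h
    rw [RingHom.mem_ker] at ht ⊢
    rw [hmap] at ht
    rw [← hχ' t, ht]; rfl
  obtain ⟨Q, hQmax, hQ⟩ := Ideal.exists_ideal_over_maximal_of_isIntegral
    (S := integralClosure ℤ ℂ) m hker
  exact ⟨χ', Q, hQmax, hχ', hQ⟩

end Fermat.Agent.S49
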