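import Mathlib

set_option autoImplicit false

namespace Fermat.Agent.S49

open Module

section CommonEigen

variable {K V : Type*} [Field K] [IsAlgClosed K] [AddCommGroup V] [Module K V]

/-- A commuting family of operators (given as the image of a commutative ring) has a common
eigenvector inside any nonzero finite-dimensional stable subspace. -/
theorem exists_common_eigenvector_aux {A : Type*} [CommRing A] (ρ : A →+* Module.End K V) :
    ∀ (n : ℕ) (W : Submodule K V), FiniteDimensional K W → finrank K W = n → W ≠ ⊥ →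
      (∀ t : A, ∀ w ∈ W, ρ t w ∈ W) →
      ∃ w ∈ W, w ≠ 0 ∧ ∀ t : A, ∃ c : K, ρ t w = c • w := by
  intro n
  induction n using Nat.strong_induction_on with
  | _ n ih =>
  intro W hfd hn hW hstab
  by_cases hscal : ∀ t : A, ∃ c : K, ∀ w ∈ W, ρ t w = c • w
  · obtain ⟨w, hwW, hw0⟩ := Submodule.exists_mem_ne_zero_of_ne_bot hW
    exact ⟨w, hwW, hw0, fun t => (hscal t).imp fun c hc => hc w hwW⟩
  · push_neg at hscal
    obtain ⟨t0, ht0⟩ := hscal
    let f : Module.End K W := (ρ t0).restrict (hstab t0)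
    haveI : Nontrivial W := Submodule.nontrivial_iff_ne_bot.mpr hW
    obtain ⟨μ, hμ⟩ := Module.End.exists_eigenvalue f
    obtain ⟨v, hv⟩ := hμ.exists_hasEigenvector
    obtain ⟨w1, hw1W, hw1⟩ := ht0 μ
    let W' : Submodule K V := W ⊓ LinearMap.ker (ρ t0 - μ • (1 : Module.End K V))
    have hmemW' : ∀ w, w ∈ W' ↔ w ∈ W ∧ ρ t0 w = μ • w := by
      intro w
      simp only [W', Submodule.mem_inf, LinearMap.mem_ker, LinearMap.sub_apply,
        LinearMap.smul_apply, Module.End.one_apply, sub_eq_zero]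
    have hW'le : W' ≤ W := inf_le_left
    have hW'lt : W' < W := by
      refine lt_of_le_of_ne hW'le ?_
      intro heq
      have : w1 ∈ W' := heq ▸ hw1W
      exact hw1 ((hmemW' w1).mp this).2
    have hW'ne : W' ≠ ⊥ := by
      intro hbot
      have hvmem : (v : V) ∈ W' := by
        rw [hmemW']
        refine ⟨v.2, ?_⟩
        have := hv.apply_eq_smul
        have h2 := congrArg (Subtype.val) this
        simpa [f] using h2
      rw [hbot, Submodule.mem_bot] at hvmem
      exact hv.2 (Subtype.ext hvmem)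
    have hW'stab : ∀ t : A, ∀ w ∈ W', ρ t w ∈ W' := by
      intro t w hw
      rw [hmemW'] at hw ⊢
      refine ⟨hstab t w hw.1, ?_⟩
      have hcomm : ρ t0 (ρ t w) = ρ t (ρ t0 w) := by
        have h1 : (ρ t0 * ρ t) w = (ρ t * ρ t0) w := by
          rw [← map_mul, ← map_mul, mul_comm]
        simpa [Module.End.mul_apply] using h1
      rw [hcomm, hw.2, map_smul]
    haveI : FiniteDimensional K W' := Submodule.finiteDimensional_of_le hW'le
    have hlt : finrank K W' < n := hn ▸ Submodule.finrank_lt_finrank_of_lt hW'lt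
    obtain ⟨w, hwW', hw0, hw⟩ := ih (finrank K W') hlt W' inferInstance rfl hW'ne hW'stab
    exact ⟨w, hW'le hwW', hw0, hw⟩

/-- Simultaneous eigenvector whose character has kernel inside a given prime ideal. -/
theorem exists_eigenvector_ker_le [FiniteDimensional K V] {A : Type*} [CommRing A]
    (ρ : A →+* Module.End K V) (P : Ideal A) [hPprime : P.IsPrime] (hP : RingHom.ker ρ ≤ P) :
    ∃ (v : V) (χ : A →+* K), v ≠ 0 ∧ (∀ t, ρ t v = χ t • v) ∧ RingHom.ker χ ≤ P := by
  -- choose s0 ∉ P with maximal kernel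
  let 𝒦 : Set (Submodule K V) := {U | ∃ s : A, s ∉ P ∧ U = LinearMap.ker (ρ s)}
  have h𝒦ne : 𝒦.Nonempty := ⟨LinearMap.ker (ρ 1), 1, by
    intro h1; exact hPprime.ne_top ((Ideal.eq_top_iff_one P).mpr h1), rfl⟩
  haveI : IsNoetherian K V := inferInstance
  obtain ⟨U, ⟨s0, hs0P, rfl⟩, hmax⟩ := (set_has_maximal_iff_noetherian (R := K) (M := V)).mpr
    inferInstance 𝒦 h𝒦ne
  have hker : ∀ s : A, s ∉ P → LinearMap.ker (ρ (s * s0)) ≤ LinearMap.ker (ρ s0) := by
    intro s hs
    have hss0 : s * s0 ∉ P := fun h => (hPprime.mem_or_mem h).elim hs hs0P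
    have hle : LinearMap.ker (ρ s0) ≤ LinearMap.ker (ρ (s * s0)) := by
      intro v hv
      rw [LinearMap.mem_ker] at hv ⊢
      rw [map_mul, Module.End.mul_apply, hv, map_zero]
    have hnlt := hmax (LinearMap.ker (ρ (s * s0))) ⟨s * s0, hss0, rfl⟩
    exact le_of_eq (eq_of_le_of_not_lt hle hnlt).symm
  let W : Submodule K V := LinearMap.range (ρ s0)
  have hWne : W ≠ ⊥ := by
    intro hbot
    have h0 : ρ s0 = 0 := LinearMap.range_eq_bot.mp hbot
    exact hs0P (hP (RingHom.mem_ker.mpr h0))
  have hWstab : ∀ t : A, ∀ w ∈ W, ρ t w ∈ W := by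
    rintro t _ ⟨v, rfl⟩
    refine ⟨ρ t v, ?_⟩
    have h1 : (ρ s0 * ρ t) v = (ρ t * ρ s0) v := by
      rw [← map_mul, ← map_mul, mul_comm]
    simpa [Module.End.mul_apply] using h1
  obtain ⟨w, hwW, hw0, hw⟩ :=
    exists_common_eigenvector_aux ρ (finrank K W) W inferInstance rfl hWne hWstab
  choose χ hχ using hw
  have hinj : ∀ c c' : K, c • w = c' • w → c = c' := fun c c' h =>
    smul_left_injective K hw0 h
  let χhom : A →+* K :=
    { toFun := χ
      map_one' := by
        apply hinj
        rw [← hχ 1, map_one, Module.End.one_apply, one_smul]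
      map_mul' := by
        intro s t
        apply hinj
        rw [← hχ (s * t), map_mul, Module.End.mul_apply, hχ t, map_smul, hχ s, smul_smul,
          mul_comm]
      map_zero' := by
        apply hinj
        rw [← hχ 0, map_zero, LinearMap.zero_apply, zero_smul]
      map_add' := by
        intro s t
        apply hinj
        rw [← hχ (s + t), map_add, LinearMap.add_apply, hχ s, hχ t, add_smul] }
  refine ⟨w, χhom, hw0, hχ, ?_⟩
  intro t ht
  by_contra htP
  apply hw0
  obtain ⟨v, rfl⟩ := hwW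
  have h1 : ρ t (ρ s0 v) = 0 := by
    have : χ t = 0 := RingHom.mem_ker.mp ht
    rw [hχ t, this, zero_smul]
  have h2 : v ∈ LinearMap.ker (ρ (t * s0)) := by
    rw [LinearMap.mem_ker, map_mul, Module.End.mul_apply, h1]
  exact LinearMap.mem_ker.mp (hker t htP h2)

end CommonEigen

end Fermat.Agent.S49
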