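import Fermat.Agent.S49.Congr

set_option autoImplicit false

open CuspForm EisensteinWeightOne CongruenceSubgroup ModularFormClass

namespace Fermat.Agent.S49

noncomputable section

variable {N : ℕ} [NeZero N]

/-- The ideal of Hecke operators sending `f₀` into `3 L`. -/
def congrIdeal (f₀ : CuspForm (Gamma0 N) 2) : Ideal (heckeAlgebra N 2 (∅ : Set ℕ)) where
  carrier := {t | ∃ g ∈ CuspForm.intLattice N 2,
    (t : Module.End ℂ (CuspForm (Gamma0 N) 2)) f₀ = (3 : ℤ) • g}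
  add_mem' := by
    rintro s t ⟨g, hg, hs⟩ ⟨g', hg', ht⟩
    exact ⟨g + g', add_mem hg hg', by
      rw [Subalgebra.coe_add, LinearMap.add_apply, hs, ht, smul_add]⟩
  zero_mem' := ⟨0, zero_mem _, by simp⟩
  smul_mem' := by
    rintro s t ⟨g, hg, ht⟩
    refine ⟨(s : Module.End ℂ _) g,
      CuspForm.mem_intLattice_of_mem_heckeAlgebra (by norm_num) s.2 hg, ?_⟩
    rw [smul_eq_mul, Subalgebra.coe_mul, Module.End.mul_apply, ht, map_zsmul]

theorem mem_congrIdeal_iff (f₀ : CuspForm (Gamma0 N) 2) (t : heckeAlgebra N 2 (∅ : Set ℕ)) :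
    t ∈ congrIdeal f₀ ↔ ∃ g ∈ CuspForm.intLattice N 2,
      (t : Module.End ℂ (CuspForm (Gamma0 N) 2)) f₀ = (3 : ℤ) • g := Iff.rfl

omit [NeZero N] in
theorem three_apply (f : CuspForm (Gamma0 N) 2) :
    (3 : Module.End ℂ (CuspForm (Gamma0 N) 2)) f = (3 : ℤ) • f := by
  have h : (3 : Module.End ℂ (CuspForm (Gamma0 N) 2)) =
      ((3 : ℤ) : Module.End ℂ (CuspForm (Gamma0 N) 2)) := by norm_num
  rw [h, Module.End.intCast_apply]

theorem three_mem_congrIdeal {a : ℕ → ℤ} (D : RealData N a) :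
    (3 : heckeAlgebra N 2 (∅ : Set ℕ)) ∈ congrIdeal D.f₀ := by
  rw [mem_congrIdeal_iff]
  refine ⟨D.f₀, D.mem_intLattice, ?_⟩
  have : ((3 : heckeAlgebra N 2 (∅ : Set ℕ)) : Module.End ℂ (CuspForm (Gamma0 N) 2)) = 3 := rfl
  rw [this, three_apply]

theorem one_notMem_congrIdeal {a : ℕ → ℤ} (D : RealData N a) (ha1 : a 1 = 1) :
    (1 : heckeAlgebra N 2 (∅ : Set ℕ)) ∉ congrIdeal D.f₀ := by
  rw [mem_congrIdeal_iff]
  intro h
  apply not_three_dvd_f₀ D ha1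
  simpa using h

theorem congrIdeal_ne_top {a : ℕ → ℤ} (D : RealData N a) (ha1 : a 1 = 1) :
    congrIdeal D.f₀ ≠ ⊤ := by
  rw [Ne, Ideal.eq_top_iff_one]
  exact one_notMem_congrIdeal D ha1

theorem heckeT_sub_mem_congrIdeal {a : ℕ → ℤ} (D : RealData N a)
    (heig : FormalHecke.IsEigensystem
      (fun ℓ => if ℓ ∣ N then 0 else ((chiNegThree ℓ : ℤ) : ℤ)) a)
    {ℓ : ℕ} (hℓ : ℓ.Prime) (hℓN : ¬ ℓ ∣ N) :
    (heckeAlgebra.T hℓ hℓN (Set.notMem_empty ℓ) - (a ℓ : heckeAlgebra N 2 (∅ : Set ℕ)))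
      ∈ congrIdeal D.f₀ := by
  rw [mem_congrIdeal_iff]
  obtain ⟨g, hg, h⟩ := heckeT_congr D heig hℓ hℓN
  refine ⟨g, hg, ?_⟩
  rw [← h]
  simp

theorem heckeU_sub_mem_congrIdeal {a : ℕ → ℤ} (D : RealData N a)
    (heig : FormalHecke.IsEigensystem
      (fun ℓ => if ℓ ∣ N then 0 else ((chiNegThree ℓ : ℤ) : ℤ)) a)
    {q : ℕ} (hq : q.Prime) (hqN : q ∣ N) :
    (heckeAlgebra.U hq hqN (Set.notMem_empty q) - (a q : heckeAlgebra N 2 (∅ : Set ℕ)))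
      ∈ congrIdeal D.f₀ := by
  rw [mem_congrIdeal_iff]
  obtain ⟨g, hg, h⟩ := heckeU_congr D heig hq hqN
  refine ⟨g, hg, ?_⟩
  rw [← h]
  simp

end

end Fermat.Agent.S49
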