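import Mathlib
import Fermat.Prelude.Def_CuspForm_IntegralLattice
import Fermat.Prelude.Def_CuspForm_HeckeLocal
import Fermat.Prelude.Thm_CuspForm_intLattice_fg

set_option autoImplicit false

namespace Fermat.Agent.S49

open CuspForm CongruenceSubgroup

theorem qIntegralSet_subset_intLattice (N : ℕ) :
    qIntegralSet N ⊆ (intLattice N 2 : Set (CuspForm (Gamma0 N) 2)) := by
  intro f hf
  apply Submodule.subset_span
  intro n
  obtain ⟨m, hm⟩ := Subring.mem_bot.mp (hf n)
  exact ⟨m, hm.symm⟩

theorem hasIntegralStructure_of_hasIntegralBasis {N : ℕ} (h : HasIntegralBasis N) :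
    HasIntegralStructure N 2 := by
  unfold HasIntegralStructure
  unfold HasIntegralBasis at h
  rw [eq_top_iff, ← h]
  exact Submodule.span_mono (qIntegralSet_subset_intLattice N)

theorem finiteDimensional_of_hasIntegralBasis {N : ℕ} [NeZero N] (h : HasIntegralBasis N) :
    FiniteDimensional ℂ (CuspForm (Gamma0 N) 2) := by
  obtain ⟨s, hs⟩ := intLattice_fg N 2
  have hstruct := hasIntegralStructure_of_hasIntegralBasis h
  unfold HasIntegralStructure at hstruct
  refine ⟨⟨s, ?_⟩⟩
  rw [eq_top_iff, ← hstruct, Submodule.span_le]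
  intro f hf
  rw [← hs] at hf
  exact Submodule.span_subset_span ℤ ℂ _ hf

theorem moduleFinite_heckeAlgebra {N : ℕ} [NeZero N] (h : HasIntegralBasis N) (S : Set ℕ) :
    Module.Finite ℤ (heckeAlgebra N 2 S) := by
  have hbij := latticeRestrictHom_bijective N S (hasIntegralStructure_of_hasIntegralBasis h)
  let e : (heckeAlgebra N 2 S) ≃ₐ[ℤ] (heckeLatticeAlgebra N S) :=
    AlgEquiv.ofBijective (latticeRestrictHom N S) hbij
  exact Module.Finite.equiv e.symm.toLinearEquiv

theorem isIntegral_heckeAlgebra {N : ℕ} [NeZero N] (h : HasIntegralBasis N) (S : Set ℕ) :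
    Algebra.IsIntegral ℤ (heckeAlgebra N 2 S) := by
  haveI := moduleFinite_heckeAlgebra h S
  exact Algebra.IsIntegral.of_finite ℤ _

end Fermat.Agent.S49
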