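import Mathlib
import Fermat.Prelude.Def_FormalHecke_Eigensystem

set_option autoImplicit false

namespace Fermat.Agent.S49

/-- Multiplicativity on coprime arguments, by strong induction on the first argument. -/
theorem mul_of_coprime_of_isEigensystem {R : Type*} [CommRing R] {e b : ℕ → R}
    (h : FormalHecke.IsEigensystem e b) :
    ∀ m n : ℕ, m.Coprime n → b (m * n) = b m * b n := by
  obtain ⟨h1, hrel⟩ := h
  intro m
  induction m using Nat.strong_induction_on with
  | _ m ih =>
    intro n hmn
    rcases Nat.lt_or_ge m 2 with hm | hm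
    · -- m = 0 or m = 1
      interval_cases m
      · have hn : n = 1 := by simpa using hmn
        subst hn
        simp [h1]
      · simp [h1]
    · -- m ≥ 2: pick a prime factor
      obtain ⟨p, hp, hpm⟩ := Nat.exists_prime_and_dvd (show m ≠ 1 by omega)
      obtain ⟨m', rfl⟩ := hpm
      have hm'pos : 0 < m' := by
        rcases Nat.eq_zero_or_pos m' with h0 | h0
        · subst h0; omega
        · exact h0
      have hm'lt : m' < p * m' := by
        have := hp.two_le
        nlinarith
      have hcop_p : p.Coprime n := Nat.Coprime.coprime_dvd_left (Dvd.intro _ rfl) hmn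
      have hcop_m' : m'.Coprime n := Nat.Coprime.coprime_dvd_left (Dvd.intro_left _ rfl) hmn
      have hpn : ¬ p ∣ n := fun hdiv => by
        have := Nat.eq_one_of_dvd_coprimes hcop_p (dvd_refl p) hdiv
        exact hp.one_lt.ne' this
      by_cases hpm' : p ∣ m'
      · -- p ∣ m'
        obtain ⟨m'', rfl⟩ := hpm'
        have hm''pos : 0 < m'' := by
          rcases Nat.eq_zero_or_pos m'' with h0 | h0
          · subst h0; omega
          · exact h0
        have hm''lt : m'' < p * (p * m'') := by
          have := hp.two_le
          nlinarith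
        have hcop_m'' : m''.Coprime n :=
          Nat.Coprime.coprime_dvd_left (Dvd.intro_left _ rfl) hcop_m'
        have r1 := hrel p hp (p * m'' * n)
        have hd1 : p ∣ p * m'' * n := ⟨m'' * n, by ring⟩
        have hq1 : p * m'' * n / p = m'' * n := by
          rw [mul_assoc]; exact Nat.mul_div_cancel_left _ hp.pos
        rw [if_pos hd1, hq1] at r1
        have r2 := hrel p hp (p * m'')
        have hd2 : p ∣ p * m'' := ⟨m'', rfl⟩
        have hq2 : p * m'' / p = m'' := Nat.mul_div_cancel_left _ hp.pos
        rw [if_pos hd2, hq2] at r2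
        have i1 := ih (p * m'') hm'lt n hcop_m'
        have i2 := ih m'' hm''lt n hcop_m''
        have e1 : p * (p * m'') * n = p * (p * m'' * n) := by ring
        rw [e1]
        -- b (p*(p*m''*n)) = b p * b (p*m''*n) - e p * b (m''*n)
        have s1 : b (p * (p * m'' * n)) = b p * b (p * m'' * n) - e p * b (m'' * n) := by
          rw [← r1]; ring
        have s2 : b (p * (p * m'')) = b p * b (p * m'') - e p * b m'' := by
          rw [← r2]; ring
        rw [s1, s2, i1, i2]; ring
      · -- p ∤ m'
        have hnd1 : ¬ p ∣ m' * n := fun hdiv => by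
          rcases (Nat.Prime.dvd_mul hp).1 hdiv with h' | h'
          · exact hpm' h'
          · exact hpn h'
        have r1 := hrel p hp (m' * n)
        rw [if_neg hnd1, mul_zero, add_zero] at r1
        have r2 := hrel p hp m'
        rw [if_neg hpm', mul_zero, add_zero] at r2
        have i1 := ih m' hm'lt n hcop_m'
        have e1 : p * m' * n = p * (m' * n) := by ring
        rw [e1, r1, r2, i1]; ring

theorem isRecursive_of_isEigensystem {R : Type*} [CommRing R] {e b : ℕ → R}
    (h : FormalHecke.IsEigensystem e b) : FormalHecke.IsRecursive e b := by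
  refine ⟨h.1, mul_of_coprime_of_isEigensystem h, ?_⟩
  intro ℓ r hℓ
  have r1 := h.2 ℓ hℓ (ℓ ^ (r + 1))
  have hd : ℓ ∣ ℓ ^ (r + 1) := dvd_pow_self ℓ (Nat.succ_ne_zero r)
  have hq : ℓ ^ (r + 1) / ℓ = ℓ ^ r := by
    rw [pow_succ]; exact Nat.mul_div_cancel _ hℓ.pos
  rw [if_pos hd, hq] at r1
  have e1 : ℓ ^ (r + 2) = ℓ * ℓ ^ (r + 1) := by ring
  rw [e1, ← r1]; ring

end Fermat.Agent.S49
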