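import Fermat.Agent.S49.QExp

set_option autoImplicit false

open CuspForm EisensteinWeightOne CongruenceSubgroup ModularFormClass

namespace Fermat.Agent.S49

noncomputable section

/-- `e1Chi3` is congruent to `1` mod `3`, so the bridge product is congruent to `mk a`. -/
theorem three_dvd_bridgeProduct_coeff_sub (a : ℕ → ℤ) (n : ℕ) :
    (3 : ℤ) ∣ (bridgeProduct a).coeff n - a n := by
  have h1 : e1Chi3In ℤ = 1 + PowerSeries.C (3 : ℤ) *
      PowerSeries.mk (fun n => if n = 0 then 0 else 2 * sigmaChi n) := by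
    ext m
    simp only [e1Chi3In, e1Chi3, PowerSeries.coeff_map, PowerSeries.coeff_mk, map_add,
      PowerSeries.coeff_one, PowerSeries.coeff_C_mul]
    by_cases hm : m = 0
    · simp [hm]
    · simp [hm]; ring
  have h2 : bridgeProduct a = PowerSeries.mk a + PowerSeries.C (3 : ℤ) *
      (PowerSeries.mk a * PowerSeries.mk (fun n => if n = 0 then 0 else 2 * sigmaChi n)) := by
    rw [bridgeProduct, h1]; ring
  rw [h2, map_add, PowerSeries.coeff_mk, PowerSeries.coeff_C_mul]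
  simp

theorem three_dvd_chiNegThree_sub (ℓ : ℕ) : (3 : ℤ) ∣ (ℓ : ℤ) - chiNegThree ℓ := by
  unfold chiNegThree
  have h := Nat.mod_add_div ℓ 3
  have h3 : ℓ % 3 < 3 := Nat.mod_lt _ (by norm_num)
  split_ifs with h1 h2
  · omega
  · omega
  · omega

variable {N : ℕ}

theorem mem_intLattice_iff' (f : CuspForm (Gamma0 N) 2) :
    f ∈ CuspForm.intLattice N 2 ↔ ∀ n : ℕ, ∃ m : ℤ, qCoeff ⇑f n = (m : ℂ) :=
  P2MW.S_CuspForm_intLattice_fg.W3WsD.mem_intLattice_iff f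

/-- A form all of whose coefficients are divisible by `3` is `3` times an integral form. -/
theorem exists_eq_three_smul (g' : CuspForm (Gamma0 N) 2)
    (h : ∀ n, ∃ m : ℤ, qCoeff ⇑g' n = 3 * (m : ℂ)) :
    ∃ g ∈ CuspForm.intLattice N 2, g' = (3 : ℤ) • g := by
  refine ⟨(3⁻¹ : ℂ) • g', ?_, ?_⟩
  · rw [mem_intLattice_iff']
    intro n
    obtain ⟨m, hm⟩ := h n
    refine ⟨m, ?_⟩
    rw [qCoeff_smul, hm]
    field_simp
  · rw [← Int.cast_smul_eq_zsmul ℂ, smul_smul]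
    norm_num

/-- The data of a lattice realisation, unpacked. -/
structure RealData (N : ℕ) (a : ℕ → ℤ) where
  f₀ : CuspForm (Gamma0 N) 2
  af : ℕ → ℤ
  haf : ∀ n, (af n : ℂ) = qCoeff ⇑f₀ n
  hcong : ∀ n, (3 : ℤ) ∣ af n - a n

theorem RealData.mem_intLattice {a : ℕ → ℤ} (D : RealData N a) :
    D.f₀ ∈ CuspForm.intLattice N 2 := by
  rw [mem_intLattice_iff']
  exact fun n => ⟨D.af n, (D.haf n).symm⟩

theorem exists_realData {a : ℕ → ℤ} (hreal : CuspForm.IsLatticeRealized N a) :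
    Nonempty (RealData N a) := by
  obtain ⟨f, -, af, haf, h3⟩ := hreal
  refine ⟨⟨f, af, haf, fun n => ?_⟩⟩
  have := dvd_add (h3 n) (three_dvd_bridgeProduct_coeff_sub a n)
  simpa using this

theorem heckeT_congr [NeZero N] {a : ℕ → ℤ} (D : RealData N a)
    (heig : FormalHecke.IsEigensystem
      (fun ℓ => if ℓ ∣ N then 0 else ((chiNegThree ℓ : ℤ) : ℤ)) a)
    {ℓ : ℕ} (hℓ : ℓ.Prime) (hℓN : ¬ ℓ ∣ N) :
    ∃ g ∈ CuspForm.intLattice N 2,
      heckeTLin 2 hℓ hℓN D.f₀ - (a ℓ) • D.f₀ = (3 : ℤ) • g := by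
  apply exists_eq_three_smul
  intro n
  have key : (3 : ℤ) ∣ D.af (n * ℓ) + (if ℓ ∣ n then (ℓ : ℤ) * D.af (n / ℓ) else 0)
      - a ℓ * D.af n := by
    have h1 := heig.2 ℓ hℓ n
    simp only [hℓN, if_false] at h1
    have e1 := D.hcong (n * ℓ)
    have e2 := D.hcong n
    have e3 := D.hcong (n / ℓ)
    have e4 := three_dvd_chiNegThree_sub ℓ
    rw [mul_comm ℓ n] at h1
    by_cases hd : ℓ ∣ n
    · simp only [hd, if_true] at h1 ⊢
      obtain ⟨c1, hc1⟩ := e1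
      obtain ⟨c2, hc2⟩ := e2
      obtain ⟨c3, hc3⟩ := e3
      obtain ⟨c4, hc4⟩ := e4
      refine ⟨c1 + (ℓ : ℤ) * c3 + c4 * a (n / ℓ) - a ℓ * c2, ?_⟩
      have r1 : D.af (n * ℓ) = a (n * ℓ) + 3 * c1 := by linarith
      have r2 : D.af n = a n + 3 * c2 := by linarith
      have r3 : D.af (n / ℓ) = a (n / ℓ) + 3 * c3 := by linarith
      have r4 : (ℓ : ℤ) = chiNegThree ℓ + 3 * c4 := by linarith
      rw [r1, r2, r3]
      have h1' : a (n * ℓ) = a ℓ * a n - chiNegThree ℓ * a (n / ℓ) := by linarith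
      rw [h1']
      linear_combination (a (n / ℓ)) * r4
    · simp only [hd, if_false, mul_zero, add_zero] at h1 ⊢
      obtain ⟨c1, hc1⟩ := e1
      obtain ⟨c2, hc2⟩ := e2
      refine ⟨c1 - a ℓ * c2, ?_⟩
      have r1 : D.af (n * ℓ) = a (n * ℓ) + 3 * c1 := by linarith
      have r2 : D.af n = a n + 3 * c2 := by linarith
      rw [r1, r2, h1]
      ring
  obtain ⟨m, hm⟩ := key
  refine ⟨m, ?_⟩
  rw [qCoeff_sub, qCoeff_zsmul, qCoeff_heckeTLin, ← D.haf, ← D.haf, ← D.haf]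
  have hk : ((2 : ℤ) - 1) = 1 := by norm_num
  rw [hk, zpow_one]
  have : ((D.af (n * ℓ) + (if ℓ ∣ n then (ℓ : ℤ) * D.af (n / ℓ) else 0) - a ℓ * D.af n : ℤ) : ℂ)
      = ((3 * m : ℤ) : ℂ) := by rw [hm]
  push_cast at this
  rw [← this]

theorem heckeU_congr [NeZero N] {a : ℕ → ℤ} (D : RealData N a)
    (heig : FormalHecke.IsEigensystem
      (fun ℓ => if ℓ ∣ N then 0 else ((chiNegThree ℓ : ℤ) : ℤ)) a)
    {q : ℕ} (hq : q.Prime) (hqN : q ∣ N) :
    ∃ g ∈ CuspForm.intLattice N 2,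
      heckeULin 2 hqN D.f₀ - (a q) • D.f₀ = (3 : ℤ) • g := by
  apply exists_eq_three_smul
  intro n
  have key : (3 : ℤ) ∣ D.af (n * q) - a q * D.af n := by
    have h1 := heig.2 q hq n
    simp only [hqN, if_true, zero_mul, add_zero] at h1
    rw [mul_comm q n] at h1
    obtain ⟨c1, hc1⟩ := D.hcong (n * q)
    obtain ⟨c2, hc2⟩ := D.hcong n
    refine ⟨c1 - a q * c2, ?_⟩
    have r1 : D.af (n * q) = a (n * q) + 3 * c1 := by linarith
    have r2 : D.af n = a n + 3 * c2 := by linarith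
    rw [r1, r2, h1]
    ring
  obtain ⟨m, hm⟩ := key
  refine ⟨m, ?_⟩
  rw [qCoeff_sub, qCoeff_zsmul, qCoeff_heckeULin hq, ← D.haf, ← D.haf]
  have : ((D.af (n * q) - a q * D.af n : ℤ) : ℂ) = ((3 * m : ℤ) : ℂ) := by rw [hm]
  push_cast at this
  exact this

/-- `f₀` itself is not divisible by `3` in the lattice. -/
theorem not_three_dvd_f₀ {a : ℕ → ℤ} (D : RealData N a) (ha1 : a 1 = 1) :
    ¬ ∃ g ∈ CuspForm.intLattice N 2, D.f₀ = (3 : ℤ) • g := by
  rintro ⟨g, hg, hfg⟩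
  rw [mem_intLattice_iff'] at hg
  obtain ⟨m, hm⟩ := hg 1
  have h1 : (D.af 1 : ℂ) = ((3 * m : ℤ) : ℂ) := by
    rw [D.haf, hfg, qCoeff_zsmul, hm]; push_cast; ring
  have h2 : D.af 1 = 3 * m := by exact_mod_cast h1
  have h3 := D.hcong 1
  rw [ha1, h2] at h3
  omega

end

end Fermat.Agent.S49
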